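/-
PROGRAMME ORD (S33), chapter KERN (helper9): **non-special systems on a semistable datum and the
parametrisation `kap` of the kernel of reduction** — the definitions (port of the first half of
`FF/KER/Ker0` from `RedDatum` to `SemiRedDatum9.SemiRedDatum`).

* `Pts` : the points of the special fibre, `inl (v, Q)` (a point `Q` of the component `v`) or
  `inr e` (the node `e`);  `𝔻.r : Place L F → Pts`.
* `redDivOf c Q : Pts →₀ ℤ` : the reduced divisor `Σ_i (c i, Q i)`.
* `NSSystemN 𝔻 g` : `g` centres `P i` in pairwise distinct SMOOTH residue discs `(c i, Q i)` with good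
  uniformizers `u i ∈ G (c i)`, the non-speciality of the reduced divisor on the NODAL curve in
  helper3's tuple form (`SemiRed3.NonSpecial` through the adapter `ToSemiRed9.toSemiRed`: a tuple
  `(f v)`, zero components allowed, poles bounded by the reduced divisor, values matched at the
  nodes, is a constant tuple), and an auxiliary smooth point `(c0, Q0)` off the centres.
* `OffAnn 𝔻 B` : the divisor `B` does not meet the node annuli.
* `pt S i c`, `coord`, `Ediv S T`, `D0`, `kapDiv`, `kap S T : Pic0 L F` exactly as in `Ker0`.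

The theorems (`const_of_le`, `kap_injective`, `exists_Ediv_eq`, `exists_kap_eq`) are in `KerN9`.
-/
import Mathlib
import Fermat.Agent.FF.KER.Ker0
import Fermat.Agent.ORD.REDN.DiscC9
import Fermat.Agent.ORD.SEMIRED.ToSemiRed9

set_option autoImplicit false
set_option linter.unusedSectionVars false
set_option linter.style.longLine false

namespace Fermat.Agent.ORD.KERN.KerDefs9

open AlgebraicCurve Fermat.Agent.X0.FF Fermat.Agent.RR.LSpace Fermat.Agent.MW.EMB.Value6
open Fermat.Agent.ORD.ANN.Side3 Fermat.Agent.ORD.ANN.Node3 Fermat.Agent.ORD.ANN.SemiRed3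
open Fermat.Agent.ORD.SEMIRED.SemiRedDatum9 Fermat.Agent.ORD.SEMIRED.ToSemiRed9
open Fermat.Agent.ORD.REDN.DiscC9

noncomputable section

variable {L F k Ft : Type*} [Field L] [Field F] [Algebra L F] [Field k] [Field Ft] [Algebra k Ft]
variable {ι E : Type*}

/-- the points of the special fibre: `inl (v, Q)` a point of the component `v`, `inr e` a node. -/
abbrev Pts (ι E k Ft : Type*) [Field k] [Field Ft] [Algebra k Ft] : Type _ :=
  (ι × Place k Ft) ⊕ E

/-- the reduced divisor `Σ_i (c i, Q i)` on the special fibre. -/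
def redDivOf {g : ℕ} (c : Fin g → ι) (Q : Fin g → Place k Ft) : Pts ι E k Ft →₀ ℤ :=
  ∑ i, Finsupp.single (Sum.inl (c i, Q i)) (1 : ℤ)

/-- A **non-special system** on a semistable datum. -/
structure NSSystemN (𝔻 : SemiRedDatum L F k Ft ι E) (g : ℕ) where
  /-- the components carrying the centres -/
  c : Fin g → ι
  /-- the reduced centres -/
  Q : Fin g → Place k Ft
  /-- the centres -/
  P : Fin g → Place L F
  /-- the good uniformizers -/
  u : ∀ i, 𝔻.G (c i)
  good : ∀ i, (𝔻.comp (c i)).IsGoodUnif (P i) (Q i) (u i)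
  inj : Function.Injective fun i => (c i, Q i)
  /-- the reduced divisor is non-special on the nodal curve -/
  ns : (toSemiRed 𝔻).NonSpecial (fun v Q' => redDivOf (E := E) c Q (Sum.inl (v, Q')))
  /-- an auxiliary smooth point off the centres -/
  c0 : ι
  Q0 : Place k Ft
  sm0 : 𝔻.IsSm c0 Q0
  hQ0 : ∀ i, (c i, Q i) ≠ (c0, Q0)

variable {𝔻 : SemiRedDatum L F k Ft ι E} {g : ℕ} (S : NSSystemN 𝔻 g)

/-! ### divisors off the annuli -/

/-- the divisor `B` does not meet the node annuli. -/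
def OffAnn (𝔻 : SemiRedDatum L F k Ft ι E) (B : Divisor L F) : Prop :=
  ∀ P e, 𝔻.r P = Sum.inr e → B P = 0

theorem offAnn_zero : OffAnn 𝔻 0 := fun _ _ _ => rfl

theorem OffAnn.add {B B' : Divisor L F} (h : OffAnn 𝔻 B) (h' : OffAnn 𝔻 B') : OffAnn 𝔻 (B + B') :=
  fun P e he => by rw [Finsupp.add_apply, h P e he, h' P e he, add_zero]

theorem OffAnn.sub {B B' : Divisor L F} (h : OffAnn 𝔻 B) (h' : OffAnn 𝔻 B') : OffAnn 𝔻 (B - B') :=
  fun P e he => by rw [Finsupp.sub_apply, h P e he, h' P e he, sub_zero]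

theorem OffAnn.neg {B : Divisor L F} (h : OffAnn 𝔻 B) : OffAnn 𝔻 (-B) :=
  fun P e he => by rw [Finsupp.neg_apply, h P e he, neg_zero]

theorem OffAnn.zsmul {B : Divisor L F} (h : OffAnn 𝔻 B) (n : ℤ) : OffAnn 𝔻 (n • B) :=
  fun P e he => by rw [Finsupp.smul_apply, h P e he, smul_zero]

theorem offAnn_single {P : Place L F} {v : ι} {Q : Place k Ft} (hP : 𝔻.r P = Sum.inl (v, Q))
    (n : ℤ) : OffAnn 𝔻 (Finsupp.single P n) := by
  classical
  intro P' e he
  rw [Finsupp.single_apply, if_neg]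
  rintro rfl
  rw [hP] at he
  exact absurd he (by simp)

theorem offAnn_sum {α : Type*} (s : Finset α) {B : α → Divisor L F} (h : ∀ a ∈ s, OffAnn 𝔻 (B a)) :
    OffAnn 𝔻 (∑ a ∈ s, B a) := by
  intro P e he
  rw [Finsupp.finsetSum_apply]
  exact Finset.sum_eq_zero fun a ha => h a ha P e he

theorem OffAnn.mapDomain_inr {B : Divisor L F} (h : OffAnn 𝔻 B) (e : E) :
    Finsupp.mapDomain 𝔻.r B (Sum.inr e) = 0 := by
  classical
  rw [CompDatum.mapDomain_apply_eq_sum]
  refine Finset.sum_eq_zero fun P hP => ?_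
  simp only [Finset.mem_filter] at hP
  exact h P e hP.2

namespace NSSystemN

/-! ### the reduced divisor -/

/-- the reduced divisor `D~0 = Σ_i (c i, Q i)`. -/
def redDiv : Pts ι E k Ft →₀ ℤ := redDivOf S.c S.Q

theorem redDiv_def : S.redDiv = ∑ i, Finsupp.single (Sum.inl (S.c i, S.Q i)) (1 : ℤ) := rfl

theorem redDiv_apply_Q (i : Fin g) : S.redDiv (Sum.inl (S.c i, S.Q i)) = 1 := by
  classical
  rw [redDiv_def, Finsupp.finsetSum_apply, Finset.sum_eq_single i]
  · simp
  · intro j _ hji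
    rw [Finsupp.single_apply, if_neg]
    intro h
    exact hji (S.inj (Sum.inl.inj h))
  · intro h; exact absurd (Finset.mem_univ i) h

theorem redDiv_apply_of_ne {x : Pts ι E k Ft} (h : ∀ i, Sum.inl (S.c i, S.Q i) ≠ x) :
    S.redDiv x = 0 := by
  classical
  rw [redDiv_def, Finsupp.finsetSum_apply]
  refine Finset.sum_eq_zero fun i _ => ?_
  rw [Finsupp.single_apply, if_neg (h i)]

theorem redDiv_apply_inr (e : E) : S.redDiv (Sum.inr e) = 0 :=
  S.redDiv_apply_of_ne fun _ h => by simp at h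

theorem redDiv_apply_Q0 : S.redDiv (Sum.inl (S.c0, S.Q0)) = 0 :=
  S.redDiv_apply_of_ne fun i h => S.hQ0 i (Sum.inl.inj h)

theorem redDiv_nonneg : 0 ≤ S.redDiv := by
  classical
  intro x
  rw [redDiv_def, Finsupp.finsetSum_apply]
  refine Finset.sum_nonneg fun i _ => ?_
  rw [Finsupp.single_apply]
  split_ifs <;> simp

/-- the centres are smooth points. -/
theorem isSm_Q (i : Fin g) : 𝔻.IsSm (S.c i) (S.Q i) :=
  (𝔻.comp_sm_iff).mp (S.good i).sm

/-- the reduced divisor vanishes at the branches. -/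
theorem redDiv_apply_of_isBranch {v : ι} {Q' : Place k Ft} (h : 𝔻.IsBranch v Q') :
    S.redDiv (Sum.inl (v, Q')) = 0 := by
  refine S.redDiv_apply_of_ne fun i hi => ?_
  have h1 := Sum.inl.inj hi
  have hv : S.c i = v := congrArg Prod.fst h1
  have hQ : S.Q i = Q' := congrArg Prod.snd h1
  exact S.isSm_Q i (by rw [hv, hQ]; exact h)

/-- **(NS)**, tuple form: a tuple `(f v)` (zero components allowed) with poles bounded by the reduced
divisor and values matched at the nodes is a constant tuple. -/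
theorem const_of_sec (f : ι → Ft)
    (hpole : ∀ v, f v ≠ 0 → ∀ Q' : Place k Ft, -(S.redDiv (Sum.inl (v, Q'))) ≤ Q'.ord (f v))
    (hmatch : ∀ e, valF 𝔻.Hk (𝔻.Qs e) (f (𝔻.src e)) = valF 𝔻.Hk (𝔻.Qt e) (f (𝔻.tgt e))) :
    ∃ a : k, ∀ v, f v = algebraMap k Ft a :=
  S.ns ⟨f, hpole, hmatch⟩

/-! ### the points of the discs -/

end NSSystemN

/-- the maximal ideal of `A`, as a type -/
abbrev mA (𝔻 : SemiRedDatum L F k Ft ι E) : Type _ := ↥(IsLocalRing.maximalIdeal 𝔻.B.A)

theorem not_isUnit_of_mA (c : mA 𝔻) : ¬ IsUnit (c : 𝔻.B.A) := by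
  have := c.2
  rwa [IsLocalRing.mem_maximalIdeal, mem_nonunits_iff] at this

namespace NSSystemN

theorem r_P (i : Fin g) : 𝔻.r (S.P i) = Sum.inl (S.c i, S.Q i) :=
  (𝔻.comp_r_eq_some_iff).mp (S.good i).r_eq

/-- the place of the disc of `P i` where `u i` takes the value `c ∈ m_A`. -/
def pt (i : Fin g) (c : mA 𝔻) : Place L F :=
  ((S.good i).exists_valF_eq (c := (c : 𝔻.B.A)) (not_isUnit_of_mA c)).choose

theorem comp_r_pt (i : Fin g) (c : mA 𝔻) : (𝔻.comp (S.c i)).r (S.pt i c) = some (S.Q i) :=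
  ((S.good i).exists_valF_eq (c := (c : 𝔻.B.A)) (not_isUnit_of_mA c)).choose_spec.1

theorem r_pt (i : Fin g) (c : mA 𝔻) : 𝔻.r (S.pt i c) = Sum.inl (S.c i, S.Q i) :=
  (𝔻.comp_r_eq_some_iff).mp (S.comp_r_pt i c)

theorem valF_pt (i : Fin g) (c : mA 𝔻) :
    valF 𝔻.HL (S.pt i c) (S.u i : F) = ((c : 𝔻.B.A) : L) :=
  ((S.good i).exists_valF_eq (c := (c : 𝔻.B.A)) (not_isUnit_of_mA c)).choose_spec.2

/-- the coordinate of a place of the disc of `P i`. -/
def coord (i : Fin g) {P' : Place L F} (hP' : 𝔻.r P' = Sum.inl (S.c i, S.Q i)) : mA 𝔻 :=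
  ⟨valA (𝔻.comp (S.c i)) (S.u i) (S.good i).poleFree ((𝔻.comp_r_eq_some_iff).mpr hP'), by
    rw [IsLocalRing.mem_maximalIdeal, mem_nonunits_iff]
    exact (S.good i).valA_not_isUnit ((𝔻.comp_r_eq_some_iff).mpr hP')⟩

theorem coe_coord (i : Fin g) {P' : Place L F} (hP' : 𝔻.r P' = Sum.inl (S.c i, S.Q i)) :
    (((S.coord i hP' : mA 𝔻) : 𝔻.B.A) : L) = valF 𝔻.HL P' (S.u i : F) := rfl

theorem pt_coord (i : Fin g) {P' : Place L F} (hP' : 𝔻.r P' = Sum.inl (S.c i, S.Q i)) :
    S.pt i (S.coord i hP') = P' :=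
  (S.good i).eq_of_valF_eq (S.comp_r_pt i _) ((𝔻.comp_r_eq_some_iff).mpr hP')
    (by rw [show (𝔻.comp (S.c i)).HL = 𝔻.HL from rfl, S.valF_pt]; rfl)

theorem coord_pt (i : Fin g) (c : mA 𝔻) : S.coord i (S.r_pt i c) = c := by
  apply Subtype.ext
  apply Subtype.ext
  exact S.valF_pt i c

theorem pt_injective (i : Fin g) : Function.Injective (S.pt i) := by
  intro c c' h
  rw [← S.coord_pt i c, ← S.coord_pt i c']
  apply Subtype.ext
  apply Subtype.ext
  show valF 𝔻.HL (S.pt i c) (S.u i : F) = valF 𝔻.HL (S.pt i c') (S.u i : F)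
  rw [h]

theorem pt_zero (i : Fin g) : S.pt i 0 = S.P i := by
  refine (S.good i).eq_of_valF_eq (S.comp_r_pt i _) (S.good i).r_eq ?_
  rw [show (𝔻.comp (S.c i)).HL = 𝔻.HL from rfl, S.valF_pt]
  symm
  have hmem : (S.u i : F) ∈ (S.P i).toValuationSubring :=
    ffp_mem_of_ord_nonneg _ (by rw [(S.good i).ord_self]; norm_num)
  show valF 𝔻.HL (S.P i) (S.u i : F) = 0
  rw [valF_eq_zero_iff 𝔻.HL _ hmem]
  right
  rw [(S.good i).ord_self]
  norm_num

/-- two points of the discs of the system coincide only if they have the same index. -/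
theorem eq_of_pt_eq {i j : Fin g} {c c' : mA 𝔻} (h : S.pt i c = S.pt j c') : i = j := by
  apply S.inj
  have h1 := S.r_pt i c
  rw [h, S.r_pt j c'] at h1
  exact (Sum.inl.inj h1).symm

/-! ### the divisors `E(T)` -/

/-- the divisor `E(T) = Σ_i (point of the `i`-th disc with coordinate `T i`)`. -/
def Ediv (T : Fin g → mA 𝔻) : Divisor L F := ∑ i, Finsupp.single (S.pt i (T i)) (1 : ℤ)

/-- the divisor of centres `D0 = E(0)`. -/
def D0 : Divisor L F := ∑ i, Finsupp.single (S.P i) (1 : ℤ)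

theorem Ediv_zero : S.Ediv 0 = S.D0 := by
  rw [Ediv, D0]
  refine Finset.sum_congr rfl fun i _ => ?_
  rw [Pi.zero_apply, S.pt_zero]

theorem Ediv_nonneg (T : Fin g → mA 𝔻) : 0 ≤ S.Ediv T := by
  classical
  intro P
  rw [Ediv, Finsupp.finsetSum_apply]
  refine Finset.sum_nonneg fun i _ => ?_
  rw [Finsupp.single_apply]
  split_ifs <;> simp

theorem D0_nonneg : 0 ≤ S.D0 := by
  rw [← S.Ediv_zero]; exact S.Ediv_nonneg 0

theorem mapDomain_Ediv (T : Fin g → mA 𝔻) : Finsupp.mapDomain 𝔻.r (S.Ediv T) = S.redDiv := by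
  rw [Ediv, redDiv_def, Finsupp.mapDomain_finsetSum]
  refine Finset.sum_congr rfl fun i _ => ?_
  rw [Finsupp.mapDomain_single, S.r_pt]

theorem mapDomain_D0 : Finsupp.mapDomain 𝔻.r S.D0 = S.redDiv := by
  rw [← S.Ediv_zero, S.mapDomain_Ediv]

theorem offAnn_Ediv (T : Fin g → mA 𝔻) : OffAnn 𝔻 (S.Ediv T) :=
  offAnn_sum _ fun i _ => offAnn_single (S.r_pt i (T i)) 1

theorem offAnn_D0 : OffAnn 𝔻 S.D0 := by
  rw [← S.Ediv_zero]; exact S.offAnn_Ediv 0

theorem degree_Ediv (T : Fin g → mA 𝔻) : Divisor.degree (S.Ediv T) = g := by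
  rw [Ediv, map_sum]
  simp [degree_single 𝔻.HL]

theorem degree_D0 : Divisor.degree S.D0 = g := by
  rw [← S.Ediv_zero, S.degree_Ediv]

theorem Ediv_apply_pt (T : Fin g → mA 𝔻) (i : Fin g) : S.Ediv T (S.pt i (T i)) = 1 := by
  classical
  rw [Ediv, Finsupp.finsetSum_apply, Finset.sum_eq_single i]
  · simp
  · intro j _ hji
    rw [Finsupp.single_apply, if_neg]
    intro h
    exact hji (S.eq_of_pt_eq h)
  · intro h; exact absurd (Finset.mem_univ i) h

theorem Ediv_injective : Function.Injective S.Ediv := by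
  classical
  intro T T' h
  funext i
  have h1 : S.Ediv T' (S.pt i (T i)) = 1 := by rw [← h, S.Ediv_apply_pt]
  rw [Ediv, Finsupp.finsetSum_apply] at h1
  have : ∃ j, S.pt j (T' j) = S.pt i (T i) := by
    by_contra hno
    push Not at hno
    rw [Finset.sum_eq_zero (fun j _ => by rw [Finsupp.single_apply, if_neg (hno j)])] at h1
    exact zero_ne_one h1
  obtain ⟨j, hj⟩ := this
  have hji : j = i := S.eq_of_pt_eq hj
  subst hji
  exact (S.pt_injective j hj).symm

/-- the fibre sums of `D0`, in helper3's notation. -/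
theorem fibSum_D0 (v : ι) (Q' : Place k Ft) :
    (toSemiRed 𝔻).fibSum S.D0 v Q' = S.redDiv (Sum.inl (v, Q')) := by
  rw [toSemiRed_fibSum, S.mapDomain_D0]

theorem fibSum_Ediv (T : Fin g → mA 𝔻) (v : ι) (Q' : Place k Ft) :
    (toSemiRed 𝔻).fibSum (S.Ediv T) v Q' = S.redDiv (Sum.inl (v, Q')) := by
  rw [toSemiRed_fibSum, S.mapDomain_Ediv]

/-- (NS) for `D0` in the form consumed by the twisted NS lemma. -/
theorem nonSpecial_D0 : (toSemiRed 𝔻).NonSpecial (fun v Q' => (toSemiRed 𝔻).fibSum S.D0 v Q') := by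
  have : (fun v Q' => (toSemiRed 𝔻).fibSum S.D0 v Q') =
      fun v Q' => redDivOf (E := E) S.c S.Q (Sum.inl (v, Q')) := by
    funext v Q'
    exact S.fibSum_D0 v Q'
  rw [this]
  exact S.ns

/-- the points of `D0` are smooth. -/
theorem smooth_of_D0_ne_zero {P : Place L F} (h : S.D0 P ≠ 0) : (toSemiRed 𝔻).Smooth P := by
  rw [toSemiRed_smooth_iff]
  rcases hr : 𝔻.r P with ⟨v, Q'⟩ | e
  · exact ⟨v, Q', rfl⟩
  · exact absurd (S.offAnn_D0 P e hr) h

/-! ### the parametrisation -/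

/-- `E(T) − D0` as a divisor of degree zero. -/
def kapDiv (T : Fin g → mA 𝔻) : Divisor.degZero (K := L) (F := F) :=
  ⟨S.Ediv T - S.D0, by rw [Divisor.mem_degZero, map_sub, S.degree_Ediv, S.degree_D0, sub_self]⟩

@[simp] theorem coe_kapDiv (T : Fin g → mA 𝔻) :
    ((S.kapDiv T : Divisor.degZero (K := L) (F := F)) : Divisor L F) = S.Ediv T - S.D0 := rfl

/-- **the parametrisation** `T ↦ [E(T) − D0]` of the kernel of reduction by the polydisc `m_A^g`. -/
def kap (T : Fin g → mA 𝔻) : Pic0 L F := Pic0.mk (S.kapDiv T)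

theorem mapDomain_kapDiv (T : Fin g → mA 𝔻) :
    Finsupp.mapDomain 𝔻.r ((S.kapDiv T : Divisor.degZero (K := L) (F := F)) : Divisor L F) = 0 := by
  rw [coe_kapDiv, Fermat.Agent.FF.KER.Ker0.mapDomain_sub', S.mapDomain_Ediv, S.mapDomain_D0,
    sub_self]

theorem offAnn_kapDiv (T : Fin g → mA 𝔻) :
    OffAnn 𝔻 ((S.kapDiv T : Divisor.degZero (K := L) (F := F)) : Divisor L F) :=
  (S.offAnn_Ediv T).sub S.offAnn_D0

theorem kap_zero : S.kap 0 = 0 := by
  have : S.kapDiv 0 = 0 := by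
    apply Subtype.ext
    show S.Ediv 0 - S.D0 = 0
    rw [S.Ediv_zero, sub_self]
  rw [kap, this]
  rfl

end NSSystemN

end

end Fermat.Agent.ORD.KERN.KerDefs9
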