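/-
PROGRAMME ORD (S33), chapter KERN (helper9): **the kernel of reduction on a semistable datum is a
polydisc** — the theorems (port of `FF/KER/Ker0` + the residual lemmas of `FF/KER/Add0`).

The only inputs from the nodes are `MatchedDatum3.nodeMatched` (helper3: an integral function without
poles on a node annulus has regular reductions at the two branches with the SAME value, and value `0`
if it has a zero on the annulus) and the finiteness of the set of components.

* `exists_normAll` : simultaneous Gauss normalisation: `c • y` integral on every component, with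
  nonzero reduction on one of them (the components where the Gauss norm of `y` is maximal).
* `exists_const_red` : THE KEY LEMMA.  If `B` is off the annuli with reduction `−D~0(S)` and `s ≠ 0`
  has `div s ≥ B`, then after ONE scaling `s` is a unit of EVERY Gauss ring with the SAME constant
  reduction `a ∈ kˣ` (the tuple of reductions is a section of `O(D~0)` on the nodal curve: (NS)).
* `divOf_offAnn_of_le`, `mapDomain_divOf_of_le` : `div s` is off the annuli and has zero fibre sums.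
* `exists_Ediv_eq` : an effective divisor reducing to `D~0` is `E(T)`.
* `exists_residual`, `residual_unique`, `exists_section` (`Add0`).
* `const_of_le` : `l(E) = 1` for every effective `E` reducing to `D~0`.
* `kap_injective`; `exists_kap_eq_of_effective` (consumes the conclusion of helper3's twisted NS
  lemma / inertia theorem); `exists_kap_eq` (untwisted: `D'` off the annuli with zero fibre sums).
-/
import Mathlib
import Fermat.Agent.ORD.KERN.KerDefs9
import Fermat.Agent.ORD.ANN.MatchedDatum3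

set_option autoImplicit false
set_option linter.unusedSectionVars false
set_option linter.style.longLine false

namespace Fermat.Agent.ORD.KERN.KerN9

open AlgebraicCurve Fermat.Agent.X0.FF Fermat.Agent.RR.LSpace Fermat.Agent.MW.EMB.Value6
open Fermat.Agent.ORD.ANN.Side3 Fermat.Agent.ORD.ANN.Node3 Fermat.Agent.ORD.ANN.SemiRed3
open Fermat.Agent.ORD.SEMIRED.SemiRedDatum9 Fermat.Agent.ORD.SEMIRED.ToSemiRed9
open Fermat.Agent.ORD.REDN.DiscC9 Fermat.Agent.ORD.KERN.KerDefs9
open Fermat.Agent.FF.KER.Ker0 (mapDomain_nonneg eq_zero_of_mapDomain_eq_zero le_mapDomain_apply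
  mapDomain_sub')

noncomputable section

variable {L F k Ft : Type*} [Field L] [Field F] [Algebra L F] [Field k] [Field Ft] [Algebra k Ft]
variable {ι E : Type*} (𝔻 : SemiRedDatum L F k Ft ι E)

/-! ### generalities -/

theorem mapDomain_apply_eq_zero_of_forall_ne {α β : Type*} (f : α → β) (v : α →₀ ℤ) {b : β}
    (h : ∀ a, f a ≠ b) : Finsupp.mapDomain f v b = 0 := by
  classical
  rw [CompDatum.mapDomain_apply_eq_sum]
  refine Finset.sum_eq_zero fun a ha => ?_
  simp only [Finset.mem_filter] at ha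
  exact absurd ha.2 (h a)

open Classical in
/-- a term of a fibre sum is bounded by the sum if the terms of that fibre are nonnegative. -/
theorem apply_le_mapDomain_of_fibre_nonneg {α β : Type*} (f : α → β) (v : α →₀ ℤ) (a : α)
    (h : ∀ a', f a' = f a → 0 ≤ v a') : v a ≤ Finsupp.mapDomain f v (f a) := by
  rw [CompDatum.mapDomain_apply_eq_sum]
  by_cases h0 : v a = 0
  · rw [h0]; exact Finset.sum_nonneg fun a' ha' => h a' (Finset.mem_filter.mp ha').2
  have hmem : a ∈ v.support.filter (fun a' => f a' = f a) := by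
    rw [Finset.mem_filter, Finsupp.mem_support_iff]
    exact ⟨h0, rfl⟩
  exact Finset.single_le_sum (f := fun a => v a)
    (fun a' ha' => h a' (Finset.mem_filter.mp ha').2) hmem

/-- no place reduces to a branch point. -/
theorem mapDomain_r_apply_of_isBranch (D : Divisor L F) {v : ι} {Q' : Place k Ft}
    (h : 𝔻.IsBranch v Q') : Finsupp.mapDomain 𝔻.r D (Sum.inl (v, Q')) = 0 :=
  mapDomain_apply_eq_zero_of_forall_ne _ _ fun P hP => 𝔻.isSm_of_r hP h

theorem ord_const_mul (P : Place L F) {c : L} (hc : c ≠ 0) {y : F} (hy : y ≠ 0) :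
    P.ord (algebraMap L F c * y) = P.ord y := by
  rw [P.ord_mul ((map_ne_zero _).mpr hc) hy, ffp_ord_algebraMap, zero_add]

/-! ### simultaneous normalisation -/

/-- **Simultaneous Gauss normalisation**: `c • y` is integral on every component and has nonzero
reduction on at least one. -/
theorem exists_normAll [Finite ι] [Nonempty ι] {y : F} (hy : y ≠ 0) :
    ∃ c : L, c ≠ 0 ∧ (∀ v, algebraMap L F c * y ∈ 𝔻.G v) ∧ ∃ v, (𝔻.side v).IsNorm c y := by
  choose c hc using fun v => (𝔻.side v).exists_isNorm hy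
  obtain ⟨v0, hv0⟩ := Finite.exists_min (fun v => 𝔻.B.A.valuation (c v))
  refine ⟨c v0, (hc v0).c_ne_zero, fun v => ?_, v0, hc v0⟩
  have hcv : c v ≠ 0 := (hc v).c_ne_zero
  have hmem : c v0 / c v ∈ 𝔻.B.A := by
    rw [← ValuationSubring.valuation_le_one_iff, map_div₀]
    exact div_le_one_of_le₀ (hv0 v) zero_le'
  have e : algebraMap L F (c v0) * y =
      algebraMap L F (c v0 / c v) * (algebraMap L F (c v) * y) := by
    rw [← mul_assoc, ← map_mul, div_mul_cancel₀ _ hcv]
  rw [e]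
  exact (𝔻.G v).mul_mem ((𝔻.side v).const_mem ⟨_, hmem⟩) (hc v).mem

/-- fibre sums of a function normalised on the component `v`, at the smooth points. -/
theorem mapDomain_divOf_of_isNorm {y : F} (hy : y ≠ 0) {c : L} {v : ι}
    (hc : (𝔻.side v).IsNorm c y) {Q' : Place k Ft} (hQ' : 𝔻.IsSm v Q') :
    Finsupp.mapDomain 𝔻.r (divOf 𝔻.HL hy) (Sum.inl (v, Q')) = Q'.ord ((𝔻.side v).nred c y) := by
  rw [hc.nred_eq]
  exact 𝔻.compat v ⟨_, hc.mem⟩ (by rw [← hc.nred_eq]; exact hc.nred_ne_zero) (divOf 𝔻.HL hy)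
    (fun P => by rw [divOf_apply, ord_const_mul P hc.c_ne_zero hy]) Q' (𝔻.exists_r_of_isSm hQ')

/-! ### the key lemma -/

variable {𝔻} {g : ℕ} (S : NSSystemN 𝔻 g)

/-- **Key lemma.**  If `B` is off the annuli with reduction `−D~0` and `s ≠ 0` has `div s ≥ B`, then
after one scaling `s` is a unit of every Gauss ring with the same constant reduction. -/
theorem exists_const_red [Finite ι] [Nonempty ι] (B : Divisor L F) (hBann : OffAnn 𝔻 B)
    (hBr : Finsupp.mapDomain 𝔻.r B = -S.redDiv) {s : F} (hs : s ≠ 0)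
    (hsB : ∀ P : Place L F, B P ≤ P.ord s) :
    ∃ (c : L) (a : k), c ≠ 0 ∧ a ≠ 0 ∧ ∀ v, (𝔻.side v).IsNorm c s ∧
      (𝔻.side v).nred c s = algebraMap k Ft a := by
  classical
  obtain ⟨c, hc0, hall, v1, hv1⟩ := exists_normAll 𝔻 hs
  have hNM := Fermat.Agent.ORD.ANN.MatchedDatum3.nodeMatched 𝔻
  -- no poles on the annuli
  have hpf : ∀ e, 𝔻.PoleFreeAnn (algebraMap L F c * s) e := by
    intro e P hP
    rw [ord_const_mul P hc0 hs]
    have := hsB P
    rwa [hBann P e hP] at this
  -- `div s - B ≥ 0`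
  have hZ : 0 ≤ divOf 𝔻.HL hs - B := by
    intro P
    rw [Finsupp.sub_apply, divOf_apply]
    have := hsB P
    simp only [Finsupp.coe_zero, Pi.zero_apply]
    omega
  have hZm := mapDomain_nonneg 𝔻.r hZ
  -- the tuple of reductions
  set f : ι → Ft := fun v => (𝔻.side v).nred c s with hf
  have hfv : ∀ v, f v = 𝔻.red v ⟨_, hall v⟩ := fun v => (𝔻.side v).nred_of_mem (hall v)
  have hnorm : ∀ v, f v ≠ 0 → (𝔻.side v).IsNorm c s := fun v hv =>
    ⟨hall v, by rw [← hfv v]; exact hv⟩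
  have hpole : ∀ v, f v ≠ 0 → ∀ Q' : Place k Ft, -(S.redDiv (Sum.inl (v, Q'))) ≤ Q'.ord (f v) := by
    intro v hv Q'
    by_cases hbr : 𝔻.IsBranch v Q'
    · rw [S.redDiv_apply_of_isBranch hbr, neg_zero]
      rcases hbr with ⟨e, rfl, rfl⟩ | ⟨e, rfl, rfl⟩
      · have := (hNM e _ (hall _) (hall _) (hpf e)).1
        rwa [← hfv] at this
      · have := (hNM e _ (hall _) (hall _) (hpf e)).2.1
        rwa [← hfv] at this
    · have h1 := mapDomain_divOf_of_isNorm 𝔻 hs (hnorm v hv) (Q' := Q') hbr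
      have h2 := hZm (Sum.inl (v, Q'))
      rw [mapDomain_sub', Finsupp.sub_apply, h1, hBr, Finsupp.neg_apply] at h2
      simp only [Finsupp.coe_zero, Pi.zero_apply] at h2
      show -(S.redDiv (Sum.inl (v, Q'))) ≤ Q'.ord ((𝔻.side v).nred c s)
      omega
  have hmatch : ∀ e, valF 𝔻.Hk (𝔻.Qs e) (f (𝔻.src e)) = valF 𝔻.Hk (𝔻.Qt e) (f (𝔻.tgt e)) := by
    intro e
    rw [hfv, hfv]
    exact (hNM e _ (hall _) (hall _) (hpf e)).2.2.1
  obtain ⟨a, ha⟩ := S.const_of_sec f hpole hmatch
  have ha0 : a ≠ 0 := by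
    rintro rfl
    have := ha v1
    rw [map_zero] at this
    exact hv1.nred_ne_zero this
  have hne : ∀ v, f v ≠ 0 := fun v => by rw [ha v]; exact (map_ne_zero _).mpr ha0
  exact ⟨c, a, hc0, ha0, fun v => ⟨hnorm v (hne v), ha v⟩⟩

/-- Under the hypotheses of the key lemma, `s` has neither zeros nor poles on the annuli. -/
theorem divOf_offAnn_of_le [Finite ι] [Nonempty ι] (B : Divisor L F) (hBann : OffAnn 𝔻 B)
    (hBr : Finsupp.mapDomain 𝔻.r B = -S.redDiv) {s : F} (hs : s ≠ 0)
    (hsB : ∀ P : Place L F, B P ≤ P.ord s) : OffAnn 𝔻 (divOf 𝔻.HL hs) := by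
  obtain ⟨c, a, hc0, ha0, hca⟩ := exists_const_red S B hBann hBr hs hsB
  have hNM := Fermat.Agent.ORD.ANN.MatchedDatum3.nodeMatched 𝔻
  intro P e hP
  rw [divOf_apply]
  have hge : 0 ≤ P.ord s := by
    have := hsB P
    rwa [hBann P e hP] at this
  have hpf : 𝔻.PoleFreeAnn (algebraMap L F c * s) e := by
    intro P' hP'
    rw [ord_const_mul P' hc0 hs]
    have := hsB P'
    rwa [hBann P' e hP'] at this
  by_contra hne
  have hpos : 0 < P.ord (algebraMap L F c * s) := by
    rw [ord_const_mul P hc0 hs]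
    omega
  have h4 := (hNM e _ (hca (𝔻.src e)).1.mem (hca (𝔻.tgt e)).1.mem hpf).2.2.2 ⟨P, hP, hpos⟩
  rw [← (hca (𝔻.src e)).1.nred_eq, (hca (𝔻.src e)).2, valF_algebraMap] at h4
  exact ha0 h4

/-- Under the hypotheses of the key lemma, all the fibre sums of `div s` vanish. -/
theorem mapDomain_divOf_of_le [Finite ι] [Nonempty ι] (B : Divisor L F) (hBann : OffAnn 𝔻 B)
    (hBr : Finsupp.mapDomain 𝔻.r B = -S.redDiv) {s : F} (hs : s ≠ 0)
    (hsB : ∀ P : Place L F, B P ≤ P.ord s) : Finsupp.mapDomain 𝔻.r (divOf 𝔻.HL hs) = 0 := by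
  obtain ⟨c, a, hc0, ha0, hca⟩ := exists_const_red S B hBann hBr hs hsB
  ext x
  rw [Finsupp.coe_zero, Pi.zero_apply]
  rcases x with ⟨v, Q'⟩ | e
  · by_cases hbr : 𝔻.IsBranch v Q'
    · exact mapDomain_r_apply_of_isBranch 𝔻 _ hbr
    · rw [mapDomain_divOf_of_isNorm 𝔻 hs (hca v).1 hbr, (hca v).2, ffp_ord_algebraMap]
  · exact (divOf_offAnn_of_le S B hBann hBr hs hsB).mapDomain_inr e

/-! ### effective divisors reducing to `D~0` -/

/-- an effective divisor reducing to `D~0` does not meet the annuli. -/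
theorem offAnn_of_mapDomain_eq {E' : Divisor L F} (hE : 0 ≤ E')
    (hEr : Finsupp.mapDomain 𝔻.r E' = S.redDiv) : OffAnn 𝔻 E' := by
  intro P e hP
  exact eq_zero_of_mapDomain_eq_zero 𝔻.r hE (by rw [hEr, S.redDiv_apply_inr]) hP

/-- An effective divisor reducing to `D~0` is `E(T)`. -/
theorem exists_Ediv_eq (E' : Divisor L F) (hE : 0 ≤ E')
    (hEr : Finsupp.mapDomain 𝔻.r E' = S.redDiv) : ∃ T : Fin g → mA 𝔻, S.Ediv T = E' := by
  classical
  have hex : ∀ i : Fin g, ∃ P' : Place L F, 𝔻.r P' = Sum.inl (S.c i, S.Q i) ∧ 1 ≤ E' P' := by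
    intro i
    have h1 : Finsupp.mapDomain 𝔻.r E' (Sum.inl (S.c i, S.Q i)) = 1 := by
      rw [hEr, S.redDiv_apply_Q]
    rw [CompDatum.mapDomain_apply_eq_sum] at h1
    obtain ⟨P', hP', -⟩ := Finset.exists_ne_zero_of_sum_ne_zero (by rw [h1]; exact one_ne_zero)
    simp only [Finset.mem_filter, Finsupp.mem_support_iff] at hP'
    refine ⟨P', hP'.2, ?_⟩
    have := hE P'
    simp only [Finsupp.coe_zero, Pi.zero_apply] at this
    omega
  choose P' hP'r hP'E using hex
  have hP'inj : Function.Injective P' := by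
    intro i j hij
    apply S.inj
    have h1 := hP'r i
    rw [hij, hP'r j] at h1
    exact (Sum.inl.inj h1).symm
  set E'' : Divisor L F := ∑ i, Finsupp.single (P' i) (1 : ℤ) with hE''def
  have hE''apply : ∀ P, E'' P = if ∃ i, P' i = P then 1 else 0 := by
    intro P
    rw [hE''def, Finsupp.finsetSum_apply]
    split_ifs with h
    · obtain ⟨i, rfl⟩ := h
      rw [Finset.sum_eq_single i]
      · simp
      · intro j _ hji
        rw [Finsupp.single_apply, if_neg]
        intro h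
        exact hji (hP'inj h)
      · intro h; exact absurd (Finset.mem_univ i) h
    · push Not at h
      exact Finset.sum_eq_zero fun i _ => by rw [Finsupp.single_apply, if_neg (h i)]
  have hE''r : Finsupp.mapDomain 𝔻.r E'' = S.redDiv := by
    rw [hE''def, S.redDiv_def, Finsupp.mapDomain_finsetSum]
    refine Finset.sum_congr rfl fun i _ => ?_
    rw [Finsupp.mapDomain_single, hP'r]
  have hdiff : 0 ≤ E' - E'' := by
    intro P
    rw [Finsupp.sub_apply, hE''apply]
    simp only [Finsupp.coe_zero, Pi.zero_apply]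
    split_ifs with h
    · obtain ⟨i, rfl⟩ := h
      have := hP'E i
      omega
    · have := hE P
      simp only [Finsupp.coe_zero, Pi.zero_apply] at this
      omega
  have hEE' : E' = E'' := by
    ext P
    have h0 : Finsupp.mapDomain 𝔻.r (E' - E'') (𝔻.r P) = 0 := by
      rw [mapDomain_sub', Finsupp.sub_apply, hEr, hE''r, sub_self]
    have := eq_zero_of_mapDomain_eq_zero 𝔻.r hdiff h0 (a := P) rfl
    rw [Finsupp.sub_apply] at this
    omega
  refine ⟨fun i => S.coord i (hP'r i), ?_⟩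
  rw [hEE', hE''def, NSSystemN.Ediv]
  refine Finset.sum_congr rfl fun i _ => ?_
  rw [S.pt_coord]

/-! ### residual divisors -/

/-- **Residual divisor.**  If `B` is off the annuli with reduction `−D~0(S)` and `s ≠ 0` has
`div s ≥ B`, then `div s = B + E_S(T)` for some `T ∈ m_A^g`. -/
theorem exists_residual [Finite ι] [Nonempty ι] (B : Divisor L F) (hBann : OffAnn 𝔻 B)
    (hBr : Finsupp.mapDomain 𝔻.r B = -S.redDiv) {s : F} (hs : s ≠ 0)
    (hsB : ∀ P : Place L F, B P ≤ P.ord s) :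
    ∃ T : Fin g → mA 𝔻, ∀ P : Place L F, P.ord s = B P + S.Ediv T P := by
  set Z : Divisor L F := divOf 𝔻.HL hs - B with hZdef
  have hZ : 0 ≤ Z := by
    intro P
    rw [hZdef, Finsupp.sub_apply, divOf_apply]
    have := hsB P
    simp only [Finsupp.coe_zero, Pi.zero_apply]
    omega
  have hZr : Finsupp.mapDomain 𝔻.r Z = S.redDiv := by
    rw [hZdef, mapDomain_sub', mapDomain_divOf_of_le S B hBann hBr hs hsB, hBr, zero_sub, neg_neg]
  obtain ⟨T, hT⟩ := exists_Ediv_eq S Z hZ hZr
  refine ⟨T, fun P => ?_⟩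
  rw [hT, hZdef, Finsupp.sub_apply, divOf_apply]
  ring

/-- **`l(E) = 1`** for every effective `E'` reducing to the non-special `D~0`. -/
theorem const_of_le [Finite ι] [Nonempty ι] (E' : Divisor L F) (hE : 0 ≤ E')
    (hEr : Finsupp.mapDomain 𝔻.r E' = S.redDiv) {f : F} (hf : f ≠ 0)
    (hfE : ∀ P : Place L F, -(E' P) ≤ P.ord f) : ∃ c : L, f = algebraMap L F c := by
  classical
  obtain ⟨P0, hP0⟩ := 𝔻.exists_r_of_isSm S.sm0
  -- `E'` vanishes on the fibre of `(c0, Q0)`
  have hE0 : ∀ P : Place L F, 𝔻.r P = Sum.inl (S.c0, S.Q0) → E' P = 0 := fun P hP =>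
    eq_zero_of_mapDomain_eq_zero 𝔻.r hE (by rw [hEr, S.redDiv_apply_Q0]) hP
  have hfmem : f ∈ P0.toValuationSubring :=
    ffp_mem_of_ord_nonneg P0 (by have := hfE P0; rw [hE0 P0 hP0, neg_zero] at this; exact this)
  by_contra hcon
  push Not at hcon
  set w0 : L := valF 𝔻.HL P0 f with hw0
  have hne : f ≠ algebraMap L F w0 := hcon w0
  set h : F := f - algebraMap L F w0 with hh
  have hh0 : h ≠ 0 := sub_ne_zero.mpr hne
  have hpos : 0 < P0.ord h := ord_sub_valF_pos 𝔻.HL P0 hfmem hne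
  -- poles of `h` are bounded by `E'`
  have hhE : ∀ P : Place L F, (-E') P ≤ P.ord h := by
    intro P
    rw [Finsupp.neg_apply]
    have h1 : -(E' P) ≤ P.ord f := hfE P
    have h2 : -(E' P) ≤ P.ord (-(algebraMap L F w0)) := by
      rw [ffp_ord_neg, ffp_ord_algebraMap]
      have := hE P
      simp only [Finsupp.coe_zero, Pi.zero_apply] at this
      omega
    have := ffp_le_ord_add P h1 h2 (by rw [← sub_eq_add_neg]; exact hh0)
    rwa [← sub_eq_add_neg] at this
  have hEann : OffAnn 𝔻 E' := offAnn_of_mapDomain_eq S hE hEr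
  have hBr : Finsupp.mapDomain 𝔻.r (-E') = -S.redDiv := by
    rw [← hEr]
    exact map_neg (Finsupp.mapDomain.addMonoidHom 𝔻.r) E'
  have hzero := mapDomain_divOf_of_le S (-E') hEann.neg hBr hh0 hhE
  have h1 := apply_le_mapDomain_of_fibre_nonneg 𝔻.r (divOf 𝔻.HL hh0) P0 (fun P hP => by
    rw [divOf_apply]
    have := hhE P
    rw [Finsupp.neg_apply, hE0 P (hP.trans hP0), neg_zero] at this
    exact this)
  rw [hzero, divOf_apply] at h1
  simp only [Finsupp.coe_zero, Pi.zero_apply] at h1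
  omega

/-- The residual divisor does not depend on the section, and the section is unique up to a
constant. -/
theorem residual_unique [Finite ι] [Nonempty ι] (B : Divisor L F) {s s' : F} (hs : s ≠ 0)
    (hs' : s' ≠ 0) {T T' : Fin g → mA 𝔻} (hT : ∀ P : Place L F, P.ord s = B P + S.Ediv T P)
    (hT' : ∀ P : Place L F, P.ord s' = B P + S.Ediv T' P) :
    T = T' ∧ ∃ c : L, c ≠ 0 ∧ s' = algebraMap L F c * s := by
  have hq : s' / s ≠ 0 := div_ne_zero hs' hs
  have hord : ∀ P : Place L F, P.ord (s' / s) = S.Ediv T' P - S.Ediv T P := by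
    intro P
    rw [div_eq_mul_inv, P.ord_mul hs' (inv_ne_zero hs), Place.ord_inv, hT, hT']
    ring
  obtain ⟨c, hc⟩ := const_of_le S (S.Ediv T) (S.Ediv_nonneg T) (S.mapDomain_Ediv T) hq (fun P => by
      rw [hord P]
      have := S.Ediv_nonneg T' P
      simp only [Finsupp.coe_zero, Pi.zero_apply] at this
      omega)
  have hc0 : c ≠ 0 := by
    rintro rfl
    rw [map_zero] at hc
    exact hq hc
  refine ⟨?_, c, hc0, ?_⟩
  · apply S.Ediv_injective
    ext P
    have := hord P
    rw [hc, ffp_ord_algebraMap] at this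
    omega
  · rw [← hc, div_mul_cancel₀ _ hs]

/-- Existence of a section (Riemann's inequality for the divisor `−B` of degree `g`). -/
theorem exists_section
    (hRR : ∀ E' : Divisor L F, Divisor.degree E' = g → ∃ f : F, f ≠ 0 ∧ ∀ P, -(E' P) ≤ P.ord f)
    (B : Divisor L F) (hdeg : Divisor.degree B = -(g : ℤ)) :
    ∃ s : F, s ≠ 0 ∧ ∀ P : Place L F, B P ≤ P.ord s := by
  obtain ⟨f, hf, h⟩ := hRR (-B) (by rw [map_neg, hdeg, neg_neg])
  refine ⟨f, hf, fun P => ?_⟩
  have := h P
  rwa [Finsupp.neg_apply, neg_neg] at this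

/-! ### injectivity and surjectivity of `kap` -/

/-- **(K), injectivity.** -/
theorem kap_injective [Finite ι] [Nonempty ι] : Function.Injective S.kap := by
  intro T T' h
  rw [NSSystemN.kap, NSSystemN.kap, Fermat.Agent.FF.KER.Ker0.NSSystem.mk_eq_mk_iff] at h
  obtain ⟨f, hf, hdiv⟩ := h
  have hdiv' : ∀ P : Place L F, S.Ediv T' P - S.Ediv T P = P.ord f := by
    intro P
    rw [← hdiv P]
    show _ = (S.Ediv T' - S.D0 - (S.Ediv T - S.D0)) P
    simp only [Finsupp.sub_apply]
    ring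
  obtain ⟨c, rfl⟩ := const_of_le S (S.Ediv T) (S.Ediv_nonneg T) (S.mapDomain_Ediv T) hf (fun P => by
      rw [← hdiv' P]
      have := S.Ediv_nonneg T' P
      simp only [Finsupp.coe_zero, Pi.zero_apply] at this
      omega)
  apply S.Ediv_injective
  ext P
  have := hdiv' P
  rw [ffp_ord_algebraMap] at this
  omega

/-- **(K), surjectivity, effective form**: if `D' + D0 + div φ` is effective and reduces to `D~0`
(the conclusion of the twisted NS lemma), then the class of `D'` is `kap T`. -/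
theorem exists_kap_eq_of_effective (D' : Divisor.degZero (K := L) (F := F)) {φ : F} (hφ : φ ≠ 0)
    (hE : 0 ≤ (D' : Divisor L F) + S.D0 + divOf 𝔻.HL hφ)
    (hEr : Finsupp.mapDomain 𝔻.r ((D' : Divisor L F) + S.D0 + divOf 𝔻.HL hφ) = S.redDiv) :
    ∃ T : Fin g → mA 𝔻, S.kap T = Pic0.mk D' := by
  obtain ⟨T, hT⟩ := exists_Ediv_eq S _ hE hEr
  refine ⟨T, ?_⟩
  rw [NSSystemN.kap, Fermat.Agent.FF.KER.Ker0.NSSystem.mk_eq_mk_iff]
  refine ⟨φ⁻¹, inv_ne_zero hφ, fun P => ?_⟩
  show ((D' : Divisor L F) - (S.Ediv T - S.D0)) P = _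
  rw [hT, Place.ord_inv]
  simp only [Finsupp.sub_apply, Finsupp.add_apply, divOf_apply]
  ring

/-- the same, from the conclusion of helper3's twisted NS lemma / inertia theorem. -/
theorem exists_kap_eq_of_twisted (D' : Divisor.degZero (K := L) (F := F)) {φ : F} (hφ : φ ≠ 0)
    (hE : 0 ≤ (D' : Divisor L F) + S.D0 + divOf 𝔻.HL hφ)
    (hsm : ∀ P, ((D' : Divisor L F) + S.D0 + divOf 𝔻.HL hφ) P ≠ 0 → (toSemiRed 𝔻).Smooth P)
    (hfib : ∀ v Q', (toSemiRed 𝔻).fibSum ((D' : Divisor L F) + S.D0 + divOf 𝔻.HL hφ) v Q' =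
      (toSemiRed 𝔻).fibSum S.D0 v Q') :
    ∃ T : Fin g → mA 𝔻, S.kap T = Pic0.mk D' := by
  refine exists_kap_eq_of_effective S D' hφ hE ?_
  ext x
  rcases x with ⟨v, Q'⟩ | e
  · rw [← toSemiRed_fibSum, hfib, S.fibSum_D0]
  · rw [S.redDiv_apply_inr]
    have hoff : OffAnn 𝔻 ((D' : Divisor L F) + S.D0 + divOf 𝔻.HL hφ) := by
      intro P e' he'
      by_contra hne
      obtain ⟨v, Q', h⟩ := (toSemiRed_smooth_iff 𝔻).mp (hsm P hne)
      rw [he'] at h
      exact absurd h (by simp)
    exact hoff.mapDomain_inr e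

/-- **(K), surjectivity, untwisted form**: a class of degree zero with a representative off the
annuli all of whose fibre sums vanish is `kap T`.  `hRR` is Riemann's inequality. -/
theorem exists_kap_eq [Finite ι] [Nonempty ι]
    (hRR : ∀ E' : Divisor L F, Divisor.degree E' = g → ∃ f : F, f ≠ 0 ∧ ∀ P, -(E' P) ≤ P.ord f)
    (D' : Divisor.degZero (K := L) (F := F)) (hann : OffAnn 𝔻 (D' : Divisor L F))
    (hr : Finsupp.mapDomain 𝔻.r (D' : Divisor L F) = 0) :
    ∃ T : Fin g → mA 𝔻, S.kap T = Pic0.mk D' := by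
  set B : Divisor L F := -((D' : Divisor L F) + S.D0) with hB
  have hBann : OffAnn 𝔻 B := (hann.add S.offAnn_D0).neg
  have hBr : Finsupp.mapDomain 𝔻.r B = -S.redDiv := by
    rw [hB, ← S.mapDomain_D0]
    have h1 : Finsupp.mapDomain 𝔻.r (-((D' : Divisor L F) + S.D0)) =
        -Finsupp.mapDomain 𝔻.r ((D' : Divisor L F) + S.D0) :=
      map_neg (Finsupp.mapDomain.addMonoidHom 𝔻.r) _
    rw [h1, Finsupp.mapDomain_add, hr, zero_add]
  have hdeg : Divisor.degree B = -(g : ℤ) := by
    rw [hB, map_neg, map_add, S.degree_D0, Divisor.mem_degZero.mp D'.2, zero_add]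
  obtain ⟨s, hs, hsB⟩ := exists_section hRR B hdeg
  obtain ⟨T, hT⟩ := exists_residual S B hBann hBr hs hsB
  have hE : (D' : Divisor L F) + S.D0 + divOf 𝔻.HL hs = S.Ediv T := by
    ext P
    rw [Finsupp.add_apply, Finsupp.add_apply, divOf_apply, hT P, hB, Finsupp.neg_apply,
      Finsupp.add_apply]
    ring
  exact exists_kap_eq_of_effective S D' hs (by rw [hE]; exact S.Ediv_nonneg T)
    (by rw [hE]; exact S.mapDomain_Ediv T)

/-! ### the kernel of reduction -/

variable (𝔻) in
/-- **the kernel of reduction**: the classes of the divisors of degree zero off the annuli all of whose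
fibre sums (over the smooth residue discs) vanish. -/
def kerRed : AddSubgroup (Pic0 L F) where
  carrier := {x | ∃ D' : Divisor.degZero (K := L) (F := F), OffAnn 𝔻 (D' : Divisor L F) ∧
    Finsupp.mapDomain 𝔻.r (D' : Divisor L F) = 0 ∧ Pic0.mk D' = x}
  zero_mem' := ⟨0, offAnn_zero, by simp, rfl⟩
  add_mem' := by
    rintro _ _ ⟨D1, h1, h1', rfl⟩ ⟨D2, h2, h2', rfl⟩
    refine ⟨D1 + D2, h1.add h2, ?_, rfl⟩
    push_cast
    rw [Finsupp.mapDomain_add, h1', h2', add_zero]
  neg_mem' := by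
    rintro _ ⟨D1, h1, h1', rfl⟩
    refine ⟨-D1, h1.neg, ?_, rfl⟩
    push_cast
    have h : Finsupp.mapDomain 𝔻.r (-(D1 : Divisor L F)) =
        -Finsupp.mapDomain 𝔻.r (D1 : Divisor L F) :=
      map_neg (Finsupp.mapDomain.addMonoidHom 𝔻.r) _
    rw [h, h1', neg_zero]

theorem mem_kerRed {x : Pic0 L F} : x ∈ kerRed 𝔻 ↔
    ∃ D' : Divisor.degZero (K := L) (F := F), OffAnn 𝔻 (D' : Divisor L F) ∧
      Finsupp.mapDomain 𝔻.r (D' : Divisor L F) = 0 ∧ Pic0.mk D' = x := Iff.rfl

theorem kap_mem_kerRed (T : Fin g → mA 𝔻) : S.kap T ∈ kerRed 𝔻 :=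
  ⟨S.kapDiv T, S.offAnn_kapDiv T, S.mapDomain_kapDiv T, rfl⟩

/-- **(K)**: the kernel of reduction is the polydisc `m_A^g`, through `T ↦ [E(T) − D0]`. -/
def kerEquiv [Finite ι] [Nonempty ι]
    (hRR : ∀ E' : Divisor L F, Divisor.degree E' = g → ∃ f : F, f ≠ 0 ∧ ∀ P, -(E' P) ≤ P.ord f) :
    (Fin g → mA 𝔻) ≃ kerRed 𝔻 :=
  Equiv.ofBijective (fun T => ⟨S.kap T, kap_mem_kerRed S T⟩) (by
    constructor
    · intro T T' h
      exact kap_injective S (congrArg Subtype.val h)
    · rintro ⟨x, D', hann, hr, rfl⟩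
      obtain ⟨T, hT⟩ := exists_kap_eq S hRR D' hann hr
      exact ⟨T, Subtype.ext hT⟩)

@[simp] theorem coe_kerEquiv [Finite ι] [Nonempty ι]
    (hRR : ∀ E' : Divisor L F, Divisor.degree E' = g → ∃ f : F, f ≠ 0 ∧ ∀ P, -(E' P) ≤ P.ord f)
    (T : Fin g → mA 𝔻) : ((kerEquiv S hRR T : kerRed 𝔻) : Pic0 L F) = S.kap T := rfl

end

end Fermat.Agent.ORD.KERN.KerN9
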