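/-
PROGRAMME ORD (S33), chapter KERN (helper9): **Galois equivariance of the polydisc coordinates** on a
semistable datum (port of `FF/KER/KerGal0`).

`γ : SemilinearAut L F` permuting the fibres of the specialisation `𝔻.r` (`DiscCompatN`) and fixing
the centres and the uniformizers of a non-special system `S` (`FixesN`):
* `smul_pt` : `γ • S.pt i c = S.pt i c'` when `c' = baseAut γ c`;
* `exists_act` : `baseAut γ c ∈ m_A` for `c ∈ m_A`;
* `smul_Ediv`, `smul_D0`, `smul_kap` : `γ • kap T = kap T'` when `T' i = baseAut γ (T i)`;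
* `coord_fixed_of_smul_eq` : the coordinates of a `γ`-fixed point of the kernel are `γ`-fixed.
-/
import Mathlib
import Fermat.Agent.ORD.KERN.KerN9
import Fermat.Agent.MW.EMB.GalVal1

set_option autoImplicit false
set_option linter.unusedSectionVars false
set_option linter.style.longLine false

namespace Fermat.Agent.ORD.KERN.KerGalN9

open AlgebraicCurve Fermat.Agent.X0.FF Fermat.Agent.RR.LSpace Fermat.Agent.MW.EMB.Value6
open Fermat.Agent.ORD.SEMIRED.SemiRedDatum9
open Fermat.Agent.ORD.KERN.KerDefs9 Fermat.Agent.ORD.KERN.KerN9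

noncomputable section

variable {L F k Ft : Type*} [Field L] [Field F] [Algebra L F] [Field k] [Field Ft] [Algebra k Ft]
variable {ι E : Type*} {𝔻 : SemiRedDatum L F k Ft ι E} {g : ℕ}

/-- `γ` permutes the fibres of the specialisation (residue discs and annuli). -/
def DiscCompatN (𝔻 : SemiRedDatum L F k Ft ι E) (γ : SemilinearAut L F) : Prop :=
  ∀ P P' : Place L F, 𝔻.r P = 𝔻.r P' → 𝔻.r (γ • P) = 𝔻.r (γ • P')

/-- `γ` fixes the centres and the uniformizers of the system. -/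
structure FixesN (S : NSSystemN 𝔻 g) (γ : SemilinearAut L F) : Prop where
  P : ∀ i, γ • S.P i = S.P i
  u : ∀ i, γ • (S.u i : F) = (S.u i : F)

variable {S : NSSystemN 𝔻 g} {γ : SemilinearAut L F}

theorem r_smul_of_mem_disc (hγ : DiscCompatN 𝔻 γ) (hS : FixesN S γ) (i : Fin g) {P' : Place L F}
    (hP' : 𝔻.r P' = Sum.inl (S.c i, S.Q i)) : 𝔻.r (γ • P') = Sum.inl (S.c i, S.Q i) := by
  have := hγ P' (S.P i) (by rw [hP', S.r_P])
  rw [hS.P i, S.r_P] at this
  exact this

theorem valF_smul_u (hS : FixesN S γ) (i : Fin g) (P' : Place L F) :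
    valF 𝔻.HL (γ • P') (S.u i : F) = SemilinearAut.baseAut γ (valF 𝔻.HL P' (S.u i : F)) := by
  have := Fermat.Agent.MW.EMB.GalVal1.valF_smul 𝔻.HL γ P' (S.u i : F)
  rwa [hS.u i] at this

/-- `γ` moves the point of coordinate `c` to the point of coordinate `γ c`. -/
theorem smul_pt (hγ : DiscCompatN 𝔻 γ) (hS : FixesN S γ) (i : Fin g) {c c' : mA 𝔻}
    (hc : ((c' : 𝔻.B.A) : L) = SemilinearAut.baseAut γ ((c : 𝔻.B.A) : L)) :
    γ • S.pt i c = S.pt i c' := by
  refine (S.good i).eq_of_valF_eq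
    ((𝔻.comp_r_eq_some_iff).mpr (r_smul_of_mem_disc hγ hS i (S.r_pt i c))) (S.comp_r_pt i c') ?_
  show valF 𝔻.HL (γ • S.pt i c) (S.u i : F) = valF 𝔻.HL (S.pt i c') (S.u i : F)
  rw [valF_smul_u hS, S.valF_pt, S.valF_pt, hc]

/-- `m_A` is stable under the base automorphism of `γ` (seen on the disc of `P i`). -/
theorem exists_act (hγ : DiscCompatN 𝔻 γ) (hS : FixesN S γ) (i : Fin g) (c : mA 𝔻) :
    ∃ c' : mA 𝔻, ((c' : 𝔻.B.A) : L) = SemilinearAut.baseAut γ ((c : 𝔻.B.A) : L) := by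
  refine ⟨S.coord i (r_smul_of_mem_disc hγ hS i (S.r_pt i c)), ?_⟩
  rw [S.coe_coord, valF_smul_u hS, S.valF_pt]

theorem smul_Ediv (hγ : DiscCompatN 𝔻 γ) (hS : FixesN S γ) {T T' : Fin g → mA 𝔻}
    (hT : ∀ i, ((T' i : 𝔻.B.A) : L) = SemilinearAut.baseAut γ ((T i : 𝔻.B.A) : L)) :
    γ • S.Ediv T = S.Ediv T' := by
  rw [NSSystemN.Ediv, NSSystemN.Ediv, Finset.smul_sum]
  refine Finset.sum_congr rfl fun i _ => ?_
  rw [SemilinearAut.smul_single, smul_pt hγ hS i (hT i)]

theorem smul_D0 (hS : FixesN S γ) : γ • S.D0 = S.D0 := by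
  rw [NSSystemN.D0, Finset.smul_sum]
  refine Finset.sum_congr rfl fun i _ => ?_
  rw [SemilinearAut.smul_single, hS.P i]

/-- **(K), equivariance**: the coordinates of `γ • x` are the `γ`-conjugates of the coordinates of
`x`. -/
theorem smul_kap (hγ : DiscCompatN 𝔻 γ) (hS : FixesN S γ) {T T' : Fin g → mA 𝔻}
    (hT : ∀ i, ((T' i : 𝔻.B.A) : L) = SemilinearAut.baseAut γ ((T i : 𝔻.B.A) : L)) :
    γ • S.kap T = S.kap T' := by
  rw [NSSystemN.kap, NSSystemN.kap, SemilinearAut.pic0_smul_mk]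
  congr 1
  apply Subtype.ext
  rw [SemilinearAut.coe_degZeroSMulHom]
  show γ • (S.Ediv T - S.D0) = S.Ediv T' - S.D0
  rw [smul_sub, smul_Ediv hγ hS hT, smul_D0 hS]

/-- the coordinates of a `γ`-fixed point of the kernel of reduction are `γ`-fixed. -/
theorem coord_fixed_of_smul_eq [Finite ι] [Nonempty ι] (hγ : DiscCompatN 𝔻 γ) (hS : FixesN S γ)
    {T : Fin g → mA 𝔻} (hfix : γ • S.kap T = S.kap T) (i : Fin g) :
    SemilinearAut.baseAut γ ((T i : 𝔻.B.A) : L) = ((T i : 𝔻.B.A) : L) := by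
  choose T' hT' using fun j => exists_act hγ hS j (T j)
  have h1 := smul_kap hγ hS hT'
  rw [hfix] at h1
  have h2 := kap_injective S h1
  rw [← hT' i, ← h2]

/-- conversely, fixed coordinates give a fixed point. -/
theorem smul_kap_of_fixed (hγ : DiscCompatN 𝔻 γ) (hS : FixesN S γ) {T : Fin g → mA 𝔻}
    (hT : ∀ i, SemilinearAut.baseAut γ ((T i : 𝔻.B.A) : L) = ((T i : 𝔻.B.A) : L)) :
    γ • S.kap T = S.kap T :=
  smul_kap hγ hS (fun i => (hT i).symm)

end

end Fermat.Agent.ORD.KERN.KerGalN9
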