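/-
PROGRAMME ORD (S33), chapter KERN (helper9): **the group law on the kernel of reduction, in divisor
form** (port of the two steps of `FF/KER/Add0` to a semistable datum).

With two non-special systems `S0` (coordinates of the kernel) and `S1` (auxiliary) on the same datum:
`B1 := E0(T) + E0(T') − 2 D0 − D1` (off the annuli, reduction `−D~1`) has residual `ζ` in the system
`S1`, and `B2 := E1(ζ) − D0 − D1` (reduction `−D~0`) has residual `T''` in the system `S0`; then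
`kap T + kap T' = kap T''` (`kap_add`, `exists_add`, `kap_add_of_sections`).
-/
import Mathlib
import Fermat.Agent.ORD.KERN.KerN9

set_option autoImplicit false
set_option linter.unusedSectionVars false
set_option linter.style.longLine false

namespace Fermat.Agent.ORD.KERN.AddN9

open AlgebraicCurve Fermat.Agent.X0.FF Fermat.Agent.RR.LSpace Fermat.Agent.MW.EMB.Value6
open Fermat.Agent.ORD.SEMIRED.SemiRedDatum9
open Fermat.Agent.ORD.KERN.KerDefs9 Fermat.Agent.ORD.KERN.KerN9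
open Fermat.Agent.FF.KER.Ker0 (mapDomain_sub')

noncomputable section

variable {L F k Ft : Type*} [Field L] [Field F] [Algebra L F] [Field k] [Field Ft] [Algebra k Ft]
variable {ι E : Type*} {𝔻 : SemiRedDatum L F k Ft ι E} {g : ℕ}
variable (S0 S1 : NSSystemN 𝔻 g)

/-- the divisor of conditions of step 1: `E0(T) + E0(T') − 2 D0 − D1`. -/
def B1 (T T' : Fin g → mA 𝔻) : Divisor L F :=
  S0.Ediv T + S0.Ediv T' - (2 : ℤ) • S0.D0 - S1.D0

/-- the divisor of conditions of step 2: `E1(ζ) − D0 − D1`. -/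
def B2 (ζ : Fin g → mA 𝔻) : Divisor L F := S1.Ediv ζ - S0.D0 - S1.D0

theorem offAnn_B1 (T T' : Fin g → mA 𝔻) : OffAnn 𝔻 (B1 S0 S1 T T') :=
  ((((S0.offAnn_Ediv T).add (S0.offAnn_Ediv T')).sub (S0.offAnn_D0.zsmul 2))).sub S1.offAnn_D0

theorem offAnn_B2 (ζ : Fin g → mA 𝔻) : OffAnn 𝔻 (B2 S0 S1 ζ) :=
  ((S1.offAnn_Ediv ζ).sub S0.offAnn_D0).sub S1.offAnn_D0

theorem mapDomain_B1 (T T' : Fin g → mA 𝔻) :
    Finsupp.mapDomain 𝔻.r (B1 S0 S1 T T') = -S1.redDiv := by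
  rw [B1, mapDomain_sub', mapDomain_sub', Finsupp.mapDomain_add, S0.mapDomain_Ediv,
    S0.mapDomain_Ediv, S1.mapDomain_D0]
  have : Finsupp.mapDomain 𝔻.r ((2 : ℤ) • S0.D0) = (2 : ℤ) • S0.redDiv := by
    rw [← S0.mapDomain_D0]
    exact map_zsmul (Finsupp.mapDomain.addMonoidHom 𝔻.r) 2 S0.D0
  rw [this]
  ext x
  simp only [Finsupp.sub_apply, Finsupp.add_apply, Finsupp.smul_apply, smul_eq_mul,
    Finsupp.neg_apply]
  ring

theorem mapDomain_B2 (ζ : Fin g → mA 𝔻) :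
    Finsupp.mapDomain 𝔻.r (B2 S0 S1 ζ) = -S0.redDiv := by
  rw [B2, mapDomain_sub', mapDomain_sub', S1.mapDomain_Ediv, S0.mapDomain_D0, S1.mapDomain_D0]
  ext x
  simp only [Finsupp.sub_apply, Finsupp.neg_apply]
  ring

theorem degree_B1 (T T' : Fin g → mA 𝔻) : Divisor.degree (B1 S0 S1 T T') = -(g : ℤ) := by
  rw [B1, map_sub, map_sub, map_add, map_zsmul, S0.degree_Ediv, S0.degree_Ediv, S0.degree_D0,
    S1.degree_D0]
  simp only [smul_eq_mul]
  ring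

theorem degree_B2 (ζ : Fin g → mA 𝔻) : Divisor.degree (B2 S0 S1 ζ) = -(g : ℤ) := by
  rw [B2, map_sub, map_sub, S1.degree_Ediv, S0.degree_D0, S1.degree_D0]
  ring

/-- **The addition law in divisor form**: if `s` realises step 1 with residual `ζ` and `z` realises
step 2 with residual `T''`, then `kap T + kap T' = kap T''`. -/
theorem kap_add {T T' ζ T'' : Fin g → mA 𝔻} {s z : F} (hs : s ≠ 0) (hz : z ≠ 0)
    (hsdiv : ∀ P : Place L F, P.ord s = B1 S0 S1 T T' P + S1.Ediv ζ P)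
    (hzdiv : ∀ P : Place L F, P.ord z = B2 S0 S1 ζ P + S0.Ediv T'' P) :
    S0.kap T + S0.kap T' = S0.kap T'' := by
  rw [NSSystemN.kap, NSSystemN.kap, NSSystemN.kap, ← Pic0.mk_add,
    Fermat.Agent.FF.KER.Ker0.NSSystem.mk_eq_mk_iff]
  refine ⟨z / s, div_ne_zero hz hs, fun P => ?_⟩
  rw [div_eq_mul_inv, P.ord_mul hz (inv_ne_zero hs), Place.ord_inv, hsdiv, hzdiv, B1, B2]
  show (S0.Ediv T'' - S0.D0 - ((S0.Ediv T - S0.D0) + (S0.Ediv T' - S0.D0))) P = _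
  simp only [Finsupp.sub_apply, Finsupp.add_apply, Finsupp.smul_apply, smul_eq_mul]
  ring

/-- **(S1), existence**: the two steps can always be carried out. -/
theorem exists_add [Finite ι] [Nonempty ι]
    (hRR : ∀ E' : Divisor L F, Divisor.degree E' = g → ∃ f : F, f ≠ 0 ∧ ∀ P, -(E' P) ≤ P.ord f)
    (T T' : Fin g → mA 𝔻) :
    ∃ (ζ T'' : Fin g → mA 𝔻) (s z : F), s ≠ 0 ∧ z ≠ 0 ∧
      (∀ P : Place L F, P.ord s = B1 S0 S1 T T' P + S1.Ediv ζ P) ∧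
      (∀ P : Place L F, P.ord z = B2 S0 S1 ζ P + S0.Ediv T'' P) ∧
      S0.kap T + S0.kap T' = S0.kap T'' := by
  obtain ⟨s, hs, hsB⟩ := exists_section hRR (B1 S0 S1 T T') (degree_B1 S0 S1 T T')
  obtain ⟨ζ, hζ⟩ := exists_residual S1 (B1 S0 S1 T T') (offAnn_B1 S0 S1 T T')
    (mapDomain_B1 S0 S1 T T') hs hsB
  obtain ⟨z, hz, hzB⟩ := exists_section hRR (B2 S0 S1 ζ) (degree_B2 S0 S1 ζ)
  obtain ⟨T'', hT''⟩ := exists_residual S0 (B2 S0 S1 ζ) (offAnn_B2 S0 S1 ζ)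
    (mapDomain_B2 S0 S1 ζ) hz hzB
  exact ⟨ζ, T'', s, z, hs, hz, hζ, hT'', kap_add S0 S1 hs hz hζ hT''⟩

/-- **(S1), criterion**: ANY nonzero section of step 1 with `div s ≥ B1` and ANY nonzero section of
step 2 with `div z ≥ B2(ζ)` (for the residual `ζ` of `s`) compute the sum. -/
theorem kap_add_of_sections [Finite ι] [Nonempty ι] {T T' : Fin g → mA 𝔻} {s : F} (hs : s ≠ 0)
    (hsB : ∀ P : Place L F, B1 S0 S1 T T' P ≤ P.ord s) :
    ∃ ζ : Fin g → mA 𝔻, (∀ P : Place L F, P.ord s = B1 S0 S1 T T' P + S1.Ediv ζ P) ∧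
      ∀ {z : F}, z ≠ 0 → (∀ P : Place L F, B2 S0 S1 ζ P ≤ P.ord z) →
        ∃ T'' : Fin g → mA 𝔻, (∀ P : Place L F, P.ord z = B2 S0 S1 ζ P + S0.Ediv T'' P) ∧
          S0.kap T + S0.kap T' = S0.kap T'' := by
  obtain ⟨ζ, hζ⟩ := exists_residual S1 (B1 S0 S1 T T') (offAnn_B1 S0 S1 T T')
    (mapDomain_B1 S0 S1 T T') hs hsB
  refine ⟨ζ, hζ, fun {z} hz hzB => ?_⟩
  obtain ⟨T'', hT''⟩ := exists_residual S0 (B2 S0 S1 ζ) (offAnn_B2 S0 S1 ζ)
    (mapDomain_B2 S0 S1 ζ) hz hzB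
  exact ⟨T'', hT'', kap_add S0 S1 hs hz hζ hT''⟩

end

end Fermat.Agent.ORD.KERN.AddN9
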